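import Mathlib

/-!
# S14 / A4 (helper60): powers of a prime in a Dedekind domain, and approximation in an
unramified residue-degree-one extension.

Everything here is Mathlib-only and interface independent.
-/

set_option autoImplicit false

namespace Fermat.Agent.S14.H60

open Ideal

section Dedekind

variable {S : Type*} [CommRing S] [IsDedekindDomain S]

/-- If `x ∈ P ^ k` then `span {x} = P ^ k * J`; if moreover `x ∉ P ^ (k+1)` then `¬ J ≤ P`. -/
theorem exists_span_eq_pow_mul {P : Ideal S} {x : S} {k : ℕ} (hx : x ∈ P ^ k)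
    (hx' : x ∉ P ^ (k + 1)) : ∃ J : Ideal S, span {x} = P ^ k * J ∧ ¬ J ≤ P := by
  have h1 : P ^ k ∣ span {x} := by
    rw [Ideal.dvd_iff_le, Ideal.span_singleton_le_iff_mem]
    exact hx
  obtain ⟨J, hJ⟩ := h1
  refine ⟨J, hJ, fun hle => hx' ?_⟩
  have h2 : P ∣ J := Ideal.dvd_iff_le.mpr hle
  obtain ⟨J', rfl⟩ := h2
  have h3 : span {x} ≤ P ^ (k + 1) := by
    rw [hJ, pow_succ, ← mul_assoc, mul_comm]
    exact Ideal.mul_le_right
  exact (Ideal.span_singleton_le_iff_mem _).mp h3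

/-- (D4) If `π ∈ P \ P²` and `x * π ^ n ∈ P ^ (n+1)` then `x ∈ P`. -/
theorem mem_of_mul_pow_mem {P : Ideal S} [hP : P.IsPrime] (hP0 : P ≠ ⊥) {π : S} (hπ : π ∈ P)
    (hπ2 : π ∉ P ^ 2) {x : S} {n : ℕ} (h : x * π ^ n ∈ P ^ (n + 1)) : x ∈ P := by
  obtain ⟨J, hJ, hJP⟩ := exists_span_eq_pow_mul (k := 1) (by simpa using hπ) hπ2
  rw [pow_one] at hJ
  have h1 : span {x * π ^ n} = P ^ n * (span {x} * J ^ n) := by
    rw [← Ideal.span_singleton_mul_span_singleton, ← Ideal.span_singleton_pow, hJ, mul_pow]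
    ring
  have h2 : P ^ (n + 1) ∣ P ^ n * (span {x} * J ^ n) := by
    rw [← h1, Ideal.dvd_iff_le, Ideal.span_singleton_le_iff_mem]
    exact h
  rw [pow_succ] at h2
  have h3 : P ∣ span {x} * J ^ n :=
    (mul_dvd_mul_iff_left (pow_ne_zero n hP0)).mp h2
  rw [Ideal.dvd_iff_le] at h3
  rcases hP.mul_le.mp h3 with h4 | h4
  · exact (Ideal.span_singleton_le_iff_mem _).mp h4
  · exfalso
    rcases Nat.eq_zero_or_pos n with rfl | hn
    · rw [pow_zero, Ideal.one_eq_top] at h4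
      exact hP.ne_top (top_le_iff.mp h4)
    · exact hJP ((Ideal.IsPrime.pow_le_iff hn.ne').mp h4)

/-- `π ^ n ∉ P ^ (n+1)` for `π ∈ P \ P²`. -/
theorem pow_not_mem_pow_succ {P : Ideal S} [hP : P.IsPrime] (hP0 : P ≠ ⊥) {π : S} (hπ : π ∈ P)
    (hπ2 : π ∉ P ^ 2) (n : ℕ) : π ^ n ∉ P ^ (n + 1) := by
  intro h
  have := mem_of_mul_pow_mem hP0 hπ hπ2 (x := 1) (n := n) (by simpa using h)
  exact hP.ne_top ((Ideal.eq_top_iff_one P).mpr this)

/-- (D5) `P ^ n = span {π ^ n} ⊔ P ^ (n+1)` for `π ∈ P \ P²`: every `x ∈ P ^ n` is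
`c * π ^ n + z` with `z ∈ P ^ (n+1)`. -/
theorem exists_eq_mul_pow_add {P : Ideal S} [hP : P.IsPrime] (hP0 : P ≠ ⊥) {π : S} (hπ : π ∈ P)
    (hπ2 : π ∉ P ^ 2) {n : ℕ} {x : S} (hx : x ∈ P ^ n) :
    ∃ c z : S, z ∈ P ^ (n + 1) ∧ x = c * π ^ n + z := by
  have hπn : π ^ n ∈ P ^ n := Ideal.pow_mem_pow hπ n
  have hlt : P ^ (n + 1) < span {π ^ n} ⊔ P ^ (n + 1) := by
    refine lt_of_le_of_ne le_sup_right fun heq => ?_
    apply pow_not_mem_pow_succ hP0 hπ hπ2 n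
    rw [heq]
    exact Ideal.mem_sup_left (Ideal.mem_span_singleton_self _)
  have hle : span {π ^ n} ⊔ P ^ (n + 1) ≤ P ^ n :=
    sup_le ((Ideal.span_singleton_le_iff_mem _).mpr hπn) (Ideal.pow_le_pow_right (Nat.le_succ n))
  have heq := Ideal.eq_prime_pow_of_succ_lt_of_le hP0 hlt hle
  rw [← heq] at hx
  obtain ⟨y, hy, z, hz, rfl⟩ := Submodule.mem_sup.mp hx
  obtain ⟨c, rfl⟩ := Ideal.mem_span_singleton'.mp hy
  exact ⟨c, z, hz, rfl⟩

/-- A nonzero element lies in `P ^ k \ P ^ (k+1)` for some `k`. -/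
theorem exists_mem_pow_not_mem_succ {P : Ideal S} [hP : P.IsPrime] {x : S} (hx : x ≠ 0) :
    ∃ k : ℕ, x ∈ P ^ k ∧ x ∉ P ^ (k + 1) := by
  have h : ∃ j : ℕ, x ∉ P ^ j := by
    by_contra hcon
    have hcon : ∀ j : ℕ, x ∈ P ^ j := fun j => by
      by_contra hj
      exact hcon ⟨j, hj⟩
    have h1 : x ∈ ⨅ i : ℕ, P ^ i := by
      rw [Ideal.mem_iInf]; exact hcon
    rw [Ideal.iInf_pow_eq_bot_of_isDomain P hP.ne_top] at h1
    exact hx ((Submodule.mem_bot S).mp h1)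
  classical
  have hj0 : Nat.find h ≠ 0 := by
    intro h0
    have := Nat.find_spec h
    rw [h0, pow_zero, Ideal.one_eq_top] at this
    exact this Submodule.mem_top
  obtain ⟨k, hk⟩ := Nat.exists_eq_succ_of_ne_zero hj0
  refine ⟨k, ?_, ?_⟩
  · by_contra hcon
    have := Nat.find_min' h hcon
    omega
  · have := Nat.find_spec h
    rwa [hk] at this

end Dedekind

end Fermat.Agent.S14.H60
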