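import Mathlib
import Fermat.Agent.S14.H60.PrimePow

/-!
# S14 / A4 (helper60): a `n`-th root living in a split extension forces the element to be a
local `n`-th power.

`R ⊆ S` Dedekind domains, `P` a prime of `S` over `p`, with
* (`hf`) residue degree one: every `s : S` is congruent mod `P` to an element of `R`;
* (`he`) unramified: some `π ∈ p` is not in `P ^ 2`.

Then `R / p ^ n → S / P ^ n` is bijective for every `n` (`exists_sub_mem_pow`,
`mem_pow_of_algebraMap_mem_pow`), and consequently, if `θ ^ d = a` with `θ ∈ Frac S`, `a ∈ Frac R`,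
then `a` is a `d`-th power times an element `≡ 1 mod p ^ m`, in the shape
`∃ y a' b, y ≠ 0 ∧ b ∉ p ∧ a * y ^ d * b = a' ∧ a' - b ∈ p ^ m` (`exists_local_power`).
-/

set_option autoImplicit false

namespace Fermat.Agent.S14.H60

open Ideal

section Approx

variable {R S : Type*} [CommRing R] [IsDedekindDomain R] [CommRing S] [IsDedekindDomain S]
  [Algebra R S]

/-- Lemma A: approximation of elements of `S` by elements of `R` modulo `P ^ n`. -/
theorem exists_sub_mem_pow {P : Ideal S} [hP : P.IsPrime] (hP0 : P ≠ ⊥)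
    (hf : ∀ s : S, ∃ r : R, s - algebraMap R S r ∈ P)
    {π : R} (hπ : algebraMap R S π ∈ P) (hπ2 : algebraMap R S π ∉ P ^ 2) (n : ℕ) (s : S) :
    ∃ r : R, s - algebraMap R S r ∈ P ^ n := by
  induction n with
  | zero => exact ⟨0, by simp⟩
  | succ n ih =>
    obtain ⟨r, hr⟩ := ih
    obtain ⟨c, z, hz, hcz⟩ := exists_eq_mul_pow_add hP0 hπ hπ2 hr
    obtain ⟨c₀, hc₀⟩ := hf c
    refine ⟨r + c₀ * π ^ n, ?_⟩
    have h1 : s - algebraMap R S (r + c₀ * π ^ n) =
        (c - algebraMap R S c₀) * algebraMap R S π ^ n + z := by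
      rw [map_add, map_mul, map_pow]
      linear_combination hcz
    rw [h1]
    refine add_mem ?_ hz
    rw [pow_succ, mul_comm (P ^ n) P]
    exact Ideal.mul_mem_mul hc₀ (Ideal.pow_mem_pow hπ n)

/-- Lemma B: `P ^ n ∩ R = p ^ n`. -/
theorem mem_pow_of_algebraMap_mem_pow {p : Ideal R} [hp : p.IsPrime] (hp0 : p ≠ ⊥)
    {P : Ideal S} [hP : P.IsPrime] (hP0 : P ≠ ⊥) (hPp : ∀ r : R, algebraMap R S r ∈ P ↔ r ∈ p)
    {π : R} (hπ : π ∈ p) (hπ2 : algebraMap R S π ∉ P ^ 2) (n : ℕ) {r : R}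
    (hr : algebraMap R S r ∈ P ^ n) : r ∈ p ^ n := by
  have hπS : algebraMap R S π ∈ P := (hPp π).mpr hπ
  have hmap : ∀ (m : ℕ) (x : R), x ∈ p ^ m → algebraMap R S x ∈ P ^ m := by
    intro m x hx
    have h1 : Ideal.map (algebraMap R S) p ≤ P := by
      rw [Ideal.map_le_iff_le_comap]
      intro y hy
      exact (hPp y).mpr hy
    have h2 : Ideal.map (algebraMap R S) (p ^ m) ≤ P ^ m := by
      rw [Ideal.map_pow]
      exact Ideal.pow_right_mono h1 m
    exact h2 (Ideal.mem_map_of_mem _ hx)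
  have hπ2' : π ∉ p ^ 2 := fun h => hπ2 (hmap 2 π h)
  induction n generalizing r with
  | zero => simp
  | succ n ih =>
    have hr' : r ∈ p ^ n := ih (Ideal.pow_le_pow_right (Nat.le_succ n) hr)
    obtain ⟨c, z, hz, hcz⟩ := exists_eq_mul_pow_add hp0 hπ hπ2' hr'
    have h1 : algebraMap R S c * algebraMap R S π ^ n ∈ P ^ (n + 1) := by
      have h2 : algebraMap R S c * algebraMap R S π ^ n = algebraMap R S r - algebraMap R S z := by
        rw [hcz, map_add, map_mul, map_pow]; ring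
      rw [h2]
      exact sub_mem hr (hmap (n + 1) z hz)
    have hc : c ∈ p := (hPp c).mp (mem_of_mul_pow_mem hP0 hπS hπ2 h1)
    rw [hcz]
    refine add_mem ?_ hz
    rw [pow_succ, mul_comm (p ^ n) p]
    exact Ideal.mul_mem_mul hc (Ideal.pow_mem_pow hπ n)

end Approx

section Main

variable {R S K L : Type*} [CommRing R] [IsDedekindDomain R] [CommRing S] [IsDedekindDomain S]
  [Algebra R S] [Field K] [Field L] [Algebra R K] [IsFractionRing R K] [Algebra S L]
  [IsFractionRing S L] [Algebra K L] [Algebra R L] [IsScalarTower R K L] [IsScalarTower R S L]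

/-- **Theorem C.**  If `a ∈ K = Frac R` has a `d`-th root `θ` in `L = Frac S` and the prime `P`
of `S` over `p` is unramified of residue degree one, then `a` is, up to `d`-th powers of `K`,
congruent to `1` modulo `p ^ m`. -/
theorem exists_local_power {p : Ideal R} [hp : p.IsPrime] (hp0 : p ≠ ⊥)
    {P : Ideal S} [hP : P.IsPrime] (hP0 : P ≠ ⊥) (hPp : ∀ r : R, algebraMap R S r ∈ P ↔ r ∈ p)
    (hf : ∀ s : S, ∃ r : R, s - algebraMap R S r ∈ P)
    {π : R} (hπ : π ∈ p) (hπ2 : algebraMap R S π ∉ P ^ 2)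
    {d : ℕ} (hd : 0 < d) {θ : L} {a : K} (ha : a ≠ 0) (hθ : θ ^ d = algebraMap K L a) (m : ℕ) :
    ∃ (y : K) (a' b : R), y ≠ 0 ∧ b ∉ p ∧ a * y ^ d * algebraMap R K b = algebraMap R K a' ∧
      a' - b ∈ p ^ m := by
  have hπS : algebraMap R S π ∈ P := (hPp π).mpr hπ
  have hinjRK : Function.Injective (algebraMap R K) := IsFractionRing.injective R K
  have hinjSL : Function.Injective (algebraMap S L) := IsFractionRing.injective S L
  have hinjKL : Function.Injective (algebraMap K L) := (algebraMap K L).injective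
  -- Step 1: clear denominators
  obtain ⟨a₁, a₂, ha₂, rfl⟩ := IsFractionRing.div_surjective (A := R) a
  have ha₂0 : a₂ ≠ 0 := nonZeroDivisors.ne_zero ha₂
  have ha₂K : algebraMap R K a₂ ≠ 0 := fun h => ha₂0 (hinjRK (by rw [h, map_zero]))
  have ha₁0 : a₁ ≠ 0 := by
    rintro rfl
    apply ha
    rw [map_zero, zero_div]
  obtain ⟨d', rfl⟩ := Nat.exists_eq_succ_of_ne_zero hd.ne'
  set A : R := a₁ * a₂ ^ d' with hA
  have hA0 : A ≠ 0 := mul_ne_zero ha₁0 (pow_ne_zero _ ha₂0)
  set θ₁ : L := θ * algebraMap R L a₂ with hθ₁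
  have hθ₁pow : θ₁ ^ (d' + 1) = algebraMap R L A := by
    rw [hθ₁, mul_pow, hθ, hA, IsScalarTower.algebraMap_apply R K L, IsScalarTower.algebraMap_apply R K L,
      ← map_pow, ← map_mul]
    congr 1
    rw [map_mul, map_pow]
    field_simp
    ring
  -- θ₁ is integral over S, hence in S
  have hint : IsIntegral S θ₁ := by
    refine ⟨Polynomial.X ^ (d' + 1) - Polynomial.C (algebraMap R S A),
      Polynomial.monic_X_pow_sub_C _ (Nat.succ_ne_zero d'), ?_⟩
    rw [Polynomial.eval₂_sub, Polynomial.eval₂_pow, Polynomial.eval₂_X, Polynomial.eval₂_C,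
      hθ₁pow, ← IsScalarTower.algebraMap_apply R S L, sub_self]
  obtain ⟨t, ht⟩ := IsIntegrallyClosed.isIntegral_iff.mp hint
  have htpow : t ^ (d' + 1) = algebraMap R S A := by
    apply hinjSL
    rw [map_pow, ht, hθ₁pow, ← IsScalarTower.algebraMap_apply R S L]
  have hinjRS : Function.Injective (algebraMap R S) := by
    intro x y hxy
    have h : algebraMap R L x = algebraMap R L y := by
      rw [IsScalarTower.algebraMap_apply R S L, IsScalarTower.algebraMap_apply R S L, hxy]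
    rw [IsScalarTower.algebraMap_apply R K L, IsScalarTower.algebraMap_apply R K L] at h
    exact hinjRK (hinjKL h)
  have ht0 : t ≠ 0 := by
    rintro rfl
    rw [zero_pow (Nat.succ_ne_zero d')] at htpow
    exact hA0 (hinjRS (by rw [← htpow, map_zero]))
  -- Step 2: exact power of P dividing t
  obtain ⟨k, htk, htk'⟩ := exists_mem_pow_not_mem_succ (P := P) ht0
  -- Step 3: approximate t by r ∈ R
  obtain ⟨r, hr⟩ := exists_sub_mem_pow hP0 hf hπS hπ2 (k + m + 1) t
  have hrk : algebraMap R S r ∈ P ^ k := by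
    have h1 : t - algebraMap R S r ∈ P ^ k := Ideal.pow_le_pow_right (by omega) hr
    have h2 := sub_mem htk h1
    rwa [sub_sub_cancel] at h2
  have hrk' : algebraMap R S r ∉ P ^ (k + 1) := by
    intro h
    apply htk'
    have h1 : t - algebraMap R S r ∈ P ^ (k + 1) := Ideal.pow_le_pow_right (by omega) hr
    have h2 := add_mem h1 h
    rwa [sub_add_cancel] at h2
  have hrp : r ∈ p ^ k := mem_pow_of_algebraMap_mem_pow hp0 hP0 hPp hπ hπ2 k hrk
  have hmap : ∀ (j : ℕ) (x : R), x ∈ p ^ j → algebraMap R S x ∈ P ^ j := by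
    intro j x hx
    have h1 : Ideal.map (algebraMap R S) p ≤ P := by
      rw [Ideal.map_le_iff_le_comap]
      intro y hy
      exact (hPp y).mpr hy
    have h2 : Ideal.map (algebraMap R S) (p ^ j) ≤ P ^ j := by
      rw [Ideal.map_pow]
      exact Ideal.pow_right_mono h1 j
    exact h2 (Ideal.mem_map_of_mem _ hx)
  have hrp' : r ∉ p ^ (k + 1) := fun h => hrk' (hmap _ r h)
  have hr0 : r ≠ 0 := by
    rintro rfl
    exact hrp' (zero_mem _)
  -- Step 4: A - r^d ∈ p ^ (k * d + m + 1)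
  have hdiff : algebraMap R S (A - r ^ (d' + 1)) ∈ P ^ (k * (d' + 1) + m + 1) := by
    rw [map_sub, map_pow, ← htpow]
    have hgeom := Commute.mul_geom_sum₂ (Commute.all t (algebraMap R S r)) (d' + 1)
    rw [← hgeom]
    have hsum : ∑ i ∈ Finset.range (d' + 1), t ^ i * algebraMap R S r ^ (d' + 1 - 1 - i)
        ∈ P ^ (k * d') := by
      refine Ideal.sum_mem _ fun i hi => ?_
      have hi' : i ≤ d' := Nat.lt_succ_iff.mp (Finset.mem_range.mp hi)
      have h1 : t ^ i ∈ P ^ (k * i) := by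
        rw [pow_mul]; exact Ideal.pow_mem_pow htk i
      have h2 : algebraMap R S r ^ (d' + 1 - 1 - i) ∈ P ^ (k * (d' - i)) := by
        rw [pow_mul, Nat.add_sub_cancel]; exact Ideal.pow_mem_pow hrk _
      have h3 := Ideal.mul_mem_mul h1 h2
      rw [← pow_add, ← Nat.mul_add, Nat.add_sub_cancel' hi'] at h3
      exact h3
    have h4 := Ideal.mul_mem_mul hr hsum
    rw [← pow_add] at h4
    have h5 : k + m + 1 + k * d' = k * (d' + 1) + m + 1 := by ring
    rwa [h5] at h4
  have hz : A - r ^ (d' + 1) ∈ p ^ (k * (d' + 1) + m + 1) :=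
    mem_pow_of_algebraMap_mem_pow hp0 hP0 hPp hπ hπ2 _ hdiff
  -- Step 5: factor span {r^d} = p^(k d) * J', J' not ≤ p; choose b
  obtain ⟨J, hJ, hJp⟩ := exists_span_eq_pow_mul hrp hrp'
  have hJ' : span {r ^ (d' + 1)} = p ^ (k * (d' + 1)) * J ^ (d' + 1) := by
    rw [← Ideal.span_singleton_pow, hJ, mul_pow, ← pow_mul]
  have hJp' : ¬ J ^ (d' + 1) ≤ p := fun h =>
    hJp ((Ideal.IsPrime.pow_le_iff (Nat.succ_ne_zero d')).mp h)
  obtain ⟨b, hbJ, hbp⟩ := SetLike.not_le_iff_exists.mp hJp'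
  have hbz : b * (A - r ^ (d' + 1)) ∈ span {r ^ (d' + 1)} * p ^ (m + 1) := by
    have h1 := Ideal.mul_mem_mul hbJ hz
    have h2 : J ^ (d' + 1) * p ^ (k * (d' + 1) + m + 1) =
        span {r ^ (d' + 1)} * p ^ (m + 1) := by
      have h3 : p ^ (k * (d' + 1) + m + 1) = p ^ (k * (d' + 1)) * p ^ (m + 1) := by
        rw [← pow_add, add_assoc]
      rw [hJ', h3, ← mul_assoc, mul_comm (J ^ (d' + 1)) (p ^ (k * (d' + 1)))]
    rwa [h2] at h1
  obtain ⟨z₁, hz₁, hz₁eq⟩ := Ideal.mem_span_singleton_mul.mp hbz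
  have hrK : algebraMap R K r ≠ 0 := fun h => hr0 (hinjRK (by rw [h, map_zero]))
  refine ⟨algebraMap R K a₂ / algebraMap R K r, b + z₁, b, div_ne_zero ha₂K hrK, hbp, ?_, ?_⟩
  · have h1 : algebraMap R K (r ^ (d' + 1) * z₁) = algebraMap R K (b * (A - r ^ (d' + 1))) := by
      rw [hz₁eq]
    rw [map_mul, map_mul, map_sub, map_pow, hA, map_mul, map_pow] at h1
    have hkey : algebraMap R K a₁ * algebraMap R K a₂ ^ d' * algebraMap R K b =
        (algebraMap R K b + algebraMap R K z₁) * algebraMap R K r ^ (d' + 1) := by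
      linear_combination -h1
    have hrpow : algebraMap R K r ^ (d' + 1) ≠ 0 := pow_ne_zero _ hrK
    have hshape : algebraMap R K a₁ / algebraMap R K a₂ *
        (algebraMap R K a₂ / algebraMap R K r) ^ (d'.succ) * algebraMap R K b =
        (algebraMap R K a₁ * algebraMap R K a₂ ^ d' * algebraMap R K b) /
          algebraMap R K r ^ (d' + 1) := by
      rw [div_pow, Nat.succ_eq_add_one, pow_succ (algebraMap R K a₂) d']
      field_simp
    rw [hshape, hkey, map_add, mul_div_cancel_right₀ _ hrpow]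
  · rw [add_sub_cancel_left]
    exact Ideal.pow_le_pow_right (Nat.le_succ m) hz₁

end Main

end Fermat.Agent.S14.H60
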