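import Mathlib
import Fermat.Agent.S14.H60.LocalPower

/-!
# S14 / A4 (helper60): a prime with trivial decomposition group is unramified of residue degree one.

`G` a finite Galois group for the extension of Dedekind domains `S / R` (`IsGaloisGroup G R S`),
`P` a prime of `S` over `p ≠ ⊥` whose stabiliser in `G` is trivial.  Then `e = f = 1`, i.e.
* every `s : S` is congruent mod `P` to an element of `R`;
* some `π ∈ p` is not in `P ^ 2`.
-/

set_option autoImplicit false

namespace Fermat.Agent.S14.H60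

open Ideal
open scoped Pointwise

section Galois

variable {R S G : Type*} [CommRing R] [IsDedekindDomain R] [CommRing S] [IsDedekindDomain S]
  [Algebra R S] [Module.Finite R S] [Module.IsTorsionFree R S] [Group G] [Finite G]
  [MulSemiringAction G S] [IsGaloisGroup G R S]

theorem ramificationIdx_eq_one_and_inertiaDeg_eq_one {p : Ideal R} [hp : p.IsPrime]
    {P : Ideal S} [hP : P.IsPrime] [hPp : P.LiesOver p] [PerfectField p.ResidueField]
    (hstab : ∀ g : G, g • P = P → g = 1) :
    P.ramificationIdx R = 1 ∧ P.inertiaDeg R = 1 := by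
  have hbot : MulAction.stabilizer G P = ⊥ := by
    rw [Subgroup.eq_bot_iff_forall]
    intro g hg
    exact hstab g (MulAction.mem_stabilizer_iff.mp hg)
  have hcard := Ideal.card_stabilizer_eq (G := G) p P
  rw [hbot, Subgroup.card_bot] at hcard
  have h1 := Nat.eq_one_of_mul_eq_one_right hcard.symm
  have h2 := Nat.eq_one_of_mul_eq_one_left hcard.symm
  rw [Ideal.ramificationIdxIn_eq_ramificationIdx p P G] at h1
  rw [Ideal.inertiaDegIn_eq_inertiaDeg p P G] at h2
  exact ⟨h1, h2⟩

theorem exists_residue_and_uniformizer {p : Ideal R} [hp : p.IsPrime] (hp0 : p ≠ ⊥)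
    {P : Ideal S} [hP : P.IsPrime] [hPp : P.LiesOver p] [PerfectField p.ResidueField]
    (hstab : ∀ g : G, g • P = P → g = 1) :
    (∀ s : S, ∃ r : R, s - algebraMap R S r ∈ P) ∧ ∃ π : R, π ∈ p ∧ algebraMap R S π ∉ P ^ 2 := by
  obtain ⟨he, hf⟩ := ramificationIdx_eq_one_and_inertiaDeg_eq_one (G := G) (p := p) (P := P) hstab
  have hpmax : p.IsMaximal := hp.isMaximal hp0
  have hmap0 : p.map (algebraMap R S) ≠ ⊥ := Ideal.map_ne_bot_of_ne_bot hp0
  have hmaple : p.map (algebraMap R S) ≤ P := by
    rw [Ideal.map_le_iff_le_comap]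
    exact (P.over_def p).le
  have hP0 : P ≠ ⊥ := ne_bot_of_le_ne_bot hmap0 hmaple
  have hPmax : P.IsMaximal := hP.isMaximal hP0
  constructor
  · -- residue degree one
    rw [Ideal.inertiaDeg_eq_of_isMaximal p P] at hf
    let _ : Field (R ⧸ p) := Ideal.Quotient.field p
    let _ : Field (S ⧸ P) := Ideal.Quotient.field P
    intro s
    have h1 := (finrank_eq_one_iff_of_nonzero' (1 : S ⧸ P) one_ne_zero).mp hf
      (Ideal.Quotient.mk P s)
    obtain ⟨c, hc⟩ := h1
    obtain ⟨r, rfl⟩ := Ideal.Quotient.mk_surjective c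
    refine ⟨r, ?_⟩
    rw [← Ideal.Quotient.eq, ← hc, Algebra.smul_def, mul_one]
    rfl
  · -- unramified
    rw [Ideal.IsDedekindDomain.ramificationIdx_eq_multiplicity p P hmap0] at he
    have hfin : FiniteMultiplicity P (p.map (algebraMap R S)) :=
      FiniteMultiplicity.of_not_isUnit (fun h => hP.ne_top (Ideal.isUnit_iff.mp h)) hmap0
    have hndvd : ¬ P ^ 2 ∣ p.map (algebraMap R S) := by
      intro h
      have := hfin.le_multiplicity_of_pow_dvd h
      omega
    rw [Ideal.dvd_iff_le, Ideal.map_le_iff_le_comap] at hndvd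
    obtain ⟨π, hπ, hπ2⟩ := SetLike.not_le_iff_exists.mp hndvd
    exact ⟨π, hπ, hπ2⟩

end Galois

end Fermat.Agent.S14.H60
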