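import Mathlib
import Fermat.Agent.S14.H60.Split

/-!
# S14 / A4 (helper60): number-field core.

`L / K` a Galois extension of number fields, `P` a prime of `𝓞 L` over the prime `v` of `𝓞 K`
whose stabiliser in `Gal(L/K)` is trivial.  Then every element of `𝓞 K` that is a `p`-th power
in `𝓞 L` is a `p`-th power modulo `v ^ 3` (indeed modulo any power of `v`).
-/

set_option autoImplicit false

namespace Fermat.Agent.S14.H60

open NumberField IsDedekindDomain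
open scoped Pointwise

theorem exists_sub_pow_mem_pow {K L : Type*} [Field K] [NumberField K] [Field L] [NumberField L]
    [Algebra K L] [IsGalois K L] (v : HeightOneSpectrum (𝓞 K)) (P : Ideal (𝓞 L)) [hP : P.IsPrime]
    (hPv : ∀ r : 𝓞 K, algebraMap (𝓞 K) (𝓞 L) r ∈ P ↔ r ∈ v.asIdeal)
    (hstab : ∀ τ : L ≃ₐ[K] L, τ • P = P → τ = 1)
    (n p : ℕ) (s : 𝓞 L) (u : 𝓞 K) (hs : s ^ p = algebraMap (𝓞 K) (𝓞 L) u) :
    ∃ y : 𝓞 K, u - y ^ p ∈ v.asIdeal ^ n := by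
  have hv0 : v.asIdeal ≠ ⊥ := v.ne_bot
  have hvp : v.asIdeal.IsPrime := v.isPrime
  have hlies : P.LiesOver v.asIdeal := by
    constructor
    ext r
    rw [Ideal.mem_comap]
    exact (hPv r).symm
  obtain ⟨hf, π, hπ, hπ2⟩ := exists_residue_and_uniformizer (G := (L ≃ₐ[K] L))
    (p := v.asIdeal) hv0 (P := P) hstab
  have hP0 : P ≠ ⊥ := by
    intro h
    apply hπ2
    have h1 : algebraMap (𝓞 K) (𝓞 L) π ∈ P := (hPv π).mpr hπ
    rw [h] at h1 ⊢
    rw [Ideal.mem_bot] at h1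
    rw [h1]
    exact Ideal.zero_mem _
  obtain ⟨y, hy⟩ := exists_sub_mem_pow hP0 hf ((hPv π).mpr hπ) hπ2 n s
  refine ⟨y, ?_⟩
  apply mem_pow_of_algebraMap_mem_pow hv0 hP0 hPv hπ hπ2 n
  rw [map_sub, map_pow, ← hs]
  obtain ⟨c, hc⟩ := sub_dvd_pow_sub_pow s (algebraMap (𝓞 K) (𝓞 L) y) p
  rw [hc]
  exact Ideal.mul_mem_right _ _ hy

end Fermat.Agent.S14.H60
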