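import Mathlib
import Fermat.Statements.S14
import Fermat.Agent.S14.H70.Defs
import Fermat.Agent.S14.H4.Dictionary
import Fermat.Agent.S14.H34.Decomp
import Fermat.Agent.S14.H60.Core

/-!
# S14 / A4 (helper60): `loc_of_decomposition_fixes` (skeleton statement, verbatim).

If the decomposition groups at `ℓ` fix the Kummer generator `θ` (`θ ^ p = a ∈ 𝓞 K`, `μ_p ⊆ K`),
then for every prime `v ∣ ℓ` of `K`:
* `p ∣ v(a)` (landed core of helper34, `H34.dvd_count_of_decomposition_fixes_aux`);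
* every unit `u = a x ^ p` is a `p`-th power modulo `v ^ 3`.

Proof of the second part: `E = K(θ)` is a finite Galois extension of `K`; for the prime `P` of
`𝓞 E` below the prime `Q` of `ℤ̄` given by package A0, every element of the stabiliser of `P` in
`Gal(E/K)` lifts to a decomposition element of `Gal(ℚ̄/ℚ)` fixing `K` (A0, part 2), hence fixes
`θ`, hence is trivial.  So `e = f = 1` (`Split`), and `𝓞 K / v ^ 3 → 𝓞 E / P ^ 3` is bijective
(`LocalPower`), which is applied to `(θ x) ^ p = u` (`Core`).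
-/

set_option autoImplicit false

namespace Fermat.Agent.S14.H60

open NumberField IsDedekindDomain
open scoped nonZeroDivisors Pointwise
open ExtCitation ValuationSubring IntermediateField
/-- A Kummer extension `F(θ) ⊆ E`, `θ ^ n ∈ F`, `μ_n ⊆ F`, is normal. -/
theorem normal_adjoin_of_pow_mem {F E : Type*} [Field F] [Field E] [Algebra F E] [Normal F E]
    {n : ℕ} (hn : 0 < n) {ζ : F} (hζ : IsPrimitiveRoot ζ n) {θ : E} {a : F}
    (hθ : θ ^ n = algebraMap F E a) :
    Normal F (IntermediateField.adjoin F ({θ} : Set E)) := by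
  rw [IntermediateField.normal_iff_forall_map_le']
  intro σ
  rw [IntermediateField.adjoin_map, Set.image_singleton, IntermediateField.adjoin_le_iff,
    Set.singleton_subset_iff, SetLike.mem_coe]
  by_cases hθ0 : θ = 0
  · have h0 : (σ : E →ₐ[F] E) θ = 0 := by rw [hθ0]; exact map_zero _
    rw [h0]
    exact zero_mem _
  · have hζE : IsPrimitiveRoot (algebraMap F E ζ) n := hζ.map_of_injective (algebraMap F E).injective
    have hw : ((σ : E →ₐ[F] E) θ / θ) ^ n = 1 := by
      rw [div_pow, ← map_pow, hθ, AlgHom.commutes, ← hθ]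
      exact div_self (pow_ne_zero n hθ0)
    have : NeZero n := ⟨hn.ne'⟩
    obtain ⟨i, -, hi⟩ := hζE.eq_pow_of_pow_eq_one hw
    have h1 : (σ : E →ₐ[F] E) θ = algebraMap F E (ζ ^ i) * θ := by
      rw [map_pow, hi, div_mul_cancel₀ _ hθ0]
    rw [h1]
    exact mul_mem (IntermediateField.algebraMap_mem _ _) (IntermediateField.mem_adjoin_simple_self F θ)

local notation "Qb" => AlgebraicClosure ℚ
local notation "G" => (AlgebraicClosure ℚ ≃ₐ[ℚ] AlgebraicClosure ℚ)
local notation "𝓑" => integralClosure ℤ (AlgebraicClosure ℚ)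

/-- The inclusion of the ring of integers of a finite level `E ⊆ ℚ̄` over `K` in the ring of all
algebraic integers. -/
noncomputable def inclLevel (K : IntermediateField ℚ Qb) (E : IntermediateField K Qb) :
    𝓞 E →+* 𝓑 :=
  RingHom.codRestrict ((algebraMap E Qb).comp (algebraMap (𝓞 E) E)) (integralClosure ℤ Qb)
    fun x => map_isIntegral_int (algebraMap E Qb) (RingOfIntegers.isIntegral_coe x)

theorem coe_inclLevel (K : IntermediateField ℚ Qb) (E : IntermediateField K Qb) (x : 𝓞 E) :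
    ((inclLevel K E x : 𝓑) : Qb) = ((x : E) : Qb) := rfl

variable {p : ℕ} [Fact p.Prime]

/-- **A4** (decomposition groups at `p` fix `θ` ⟹ `e = f = 1` ⟹ local condition). -/
theorem loc_of_decomposition_fixes (K : IntermediateField ℚ Qb) [NumberField K]
    (ζ : Qb) (hζ : IsPrimitiveRoot ζ p) (hζK : ζ ∈ K) (θ : Qb) (a : 𝓞 K) (ha : a ≠ 0)
    (hθ : θ ^ p = ((a : K) : Qb)) (ℓ : ℕ) (hℓ : ℓ.Prime)
    (hD : ∀ A : ValuationSubring Qb, A.LiesOverPrime ℓ →
      ∀ σ ∈ A.decompositionSubgroup ℚ, (∀ x ∈ K, σ x = x) → σ θ = θ)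
    (v : HeightOneSpectrum (𝓞 K)) (hv : (ℓ : 𝓞 K) ∈ v.asIdeal) :
    p ∣ H70.cnt v a ∧ ∀ (x : K) (u : (𝓞 K)ˣ), ((u : 𝓞 K) : K) = (a : K) * x ^ p →
      ∃ y : 𝓞 K, (u : 𝓞 K) - y ^ p ∈ v.asIdeal ^ 3 := by
  classical
  have hp : p.Prime := Fact.out
  obtain ⟨Q, hQ, A, hAℓ, hQv, hdec, -⟩ := H4.exists_valuationSubring_over K v ℓ hℓ hv
  refine ⟨H34.dvd_count_of_decomposition_fixes_aux K θ a ha hθ ℓ hℓ hD v hv Q A hAℓ hQv hdec
    (fun L _ σ₀ h => H4.exists_lift_decomposition L Q σ₀ h), ?_⟩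
  intro x u hu
  -- the finite level `E = K(θ)`
  have hQA : Algebra.IsAlgebraic ℚ Qb := AlgebraicClosure.isAlgebraic ℚ
  have hKA : Algebra.IsAlgebraic K Qb := Algebra.IsAlgebraic.tower_top (K := ℚ) K
  have hclos : IsAlgClosure K Qb := ⟨inferInstance, hKA⟩
  have hnormal : Normal K Qb := inferInstance
  let E : IntermediateField K Qb := IntermediateField.adjoin K ({θ} : Set Qb)
  have hfin : FiniteDimensional K E :=
    IntermediateField.adjoin.finiteDimensional (hKA.isAlgebraic θ).isIntegral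
  have hnf : NumberField E := NumberField.of_module_finite K E
  have hζ' : IsPrimitiveRoot (⟨ζ, hζK⟩ : K) p :=
    IsPrimitiveRoot.of_map_of_injective (f := algebraMap K Qb) hζ (algebraMap K Qb).injective
  have hEnormal : Normal K E := normal_adjoin_of_pow_mem hp.pos hζ' (a := (a : K)) hθ
  have hgal : IsGalois K E := ⟨⟩
  let P : Ideal (𝓞 E) := Q.comap (inclLevel K E)
  have hP : P.IsPrime := Ideal.comap_isPrime _ _
  have hPv : ∀ r : 𝓞 K, algebraMap (𝓞 K) (𝓞 E) r ∈ P ↔ r ∈ v.asIdeal := by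
    intro r
    rw [Ideal.mem_comap]
    exact hQv r _ rfl
  have hstab : ∀ τ : E ≃ₐ[K] E, τ • P = P → τ = 1 := by
    intro τ hτ
    let σK : Qb ≃ₐ[K] Qb := τ.liftNormal Qb
    have hσK : ∀ y : E, σK (y : Qb) = ((τ y : E) : Qb) := fun y => τ.liftNormal_commutes Qb y
    let σ₀ : G := σK.restrictScalars ℚ
    have hσ₀ : ∀ b : 𝓑, (b : Qb) ∈ K ⊔ ℚ⟮θ⟯ → (σ₀ • b ∈ Q ↔ b ∈ Q) := by
      intro b hb
      have hbE : (b : Qb) ∈ E := by
        have h2 := H34.mem_adjoin_of_mem_sup K θ hb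
        rw [← IntermediateField.adjoin_simple_toSubalgebra_of_isAlgebraic
          (hKA.isAlgebraic θ)] at h2
        exact h2
      have hbint : IsIntegral ℤ (⟨(b : Qb), hbE⟩ : E) :=
        (isIntegral_algebraMap_iff (algebraMap E Qb).injective).mp b.2
      let b' : 𝓞 E := ⟨⟨(b : Qb), hbE⟩, hbint⟩
      have h1 : inclLevel K E b' = b := Subtype.ext rfl
      have h2 : inclLevel K E (τ • b') = σ₀ • b := Subtype.ext (hσK ⟨(b : Qb), hbE⟩).symm
      have h3 : τ • b' ∈ τ • P ↔ b' ∈ P := Ideal.smul_mem_pointwise_smul_iff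
      rw [hτ] at h3
      have h4 : τ • b' ∈ P ↔ inclLevel K E (τ • b') ∈ Q := Ideal.mem_comap
      have h5 : b' ∈ P ↔ inclLevel K E b' ∈ Q := Ideal.mem_comap
      rw [h4, h5, h1, h2] at h3
      exact h3
    have hθint : IsIntegral ℚ θ := (hQA.isAlgebraic θ).isIntegral
    have : FiniteDimensional ℚ ℚ⟮θ⟯ := IntermediateField.adjoin.finiteDimensional hθint
    obtain ⟨σ, hσL, hσQ⟩ := H4.exists_lift_decomposition (K ⊔ ℚ⟮θ⟯) Q σ₀ hσ₀
    have hσK' : ∀ x ∈ K, σ x = x := by
      intro x hx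
      rw [hσL x ((le_sup_left : K ≤ K ⊔ ℚ⟮θ⟯) hx)]
      exact σK.commutes ⟨x, hx⟩
    have hσθ : σ θ = θ := hD A hAℓ σ (hdec σ hσQ) hσK'
    have hθL : θ ∈ K ⊔ ℚ⟮θ⟯ :=
      (le_sup_right : ℚ⟮θ⟯ ≤ K ⊔ ℚ⟮θ⟯) (IntermediateField.mem_adjoin_simple_self ℚ θ)
    have hσ₀θ : σK θ = θ := by
      have := hσL θ hθL
      rw [hσθ] at this
      exact this.symm
    have key : ∀ y (hy : y ∈ E), σK y = y := by
      intro y hy
      induction hy using IntermediateField.adjoin_induction with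
      | mem x hx =>
        rw [Set.mem_singleton_iff] at hx
        rw [hx]
        exact hσ₀θ
      | algebraMap x => exact σK.commutes x
      | add x y _ _ hx hy => rw [map_add, hx, hy]
      | inv x _ hx => rw [map_inv₀, hx]
      | mul x y _ _ hx hy => rw [map_mul, hx, hy]
    apply AlgEquiv.ext
    intro y
    apply Subtype.ext
    rw [← hσK y]
    exact key y y.2
  -- the `p`-th root of `u` at level `E`
  let t : E := ⟨θ, IntermediateField.mem_adjoin_simple_self K θ⟩
  have ht : t ^ p = algebraMap K E (a : K) := Subtype.ext hθ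
  let s₀ : E := t * algebraMap K E x
  have hs₀ : s₀ ^ p = algebraMap K E ((u : 𝓞 K) : K) := by
    rw [hu, mul_pow, ht, map_mul, map_pow]
  have hs₀int : IsIntegral ℤ s₀ := by
    apply IsIntegral.of_pow hp.pos
    rw [hs₀]
    exact map_isIntegral_int (algebraMap K E) (RingOfIntegers.isIntegral_coe (u : 𝓞 K))
  let s : 𝓞 E := ⟨s₀, hs₀int⟩
  have hs : s ^ p = algebraMap (𝓞 K) (𝓞 E) (u : 𝓞 K) := by
    apply RingOfIntegers.ext
    exact hs₀
  exact exists_sub_pow_mem_pow v P hPv hstab 3 p s (u : 𝓞 K) hs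

end Fermat.Agent.S14.H60
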